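/-
S55 / C7 (input for `hinj`): the Kummer extension `K(a^{1/p})` of a number field `K ∋ ζ_p` as an
abstract number field, cyclic Galois of degree `p` (Mathlib's `AdjoinRoot (X ^ p - C a)`).
-/
import Mathlib

set_option autoImplicit false

open Polynomial

namespace Fermat.Agent.CFT

namespace KummerNF

/-- **Kummer extension as an abstract number field**: for a number field `K ∋ ζ_p` and `a ∈ K` not
a `p`-th power, there is a number field `L = K(α)`, `α ^ p = a`, cyclic Galois of degree `p`
over `K`. -/
theorem exists_kummer_extension (K : Type) [Field K] [NumberField K] {p : ℕ} (hp : p.Prime)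
    {ζ : K} (hζ : IsPrimitiveRoot ζ p) (a : K) (ha : ∀ b : K, b ^ p ≠ a) :
    ∃ (L : Type) (_ : Field L) (_ : NumberField L) (_ : Algebra K L) (_ : IsGalois K L)
      (_ : IsCyclic (L ≃ₐ[K] L)) (α : L),
      Module.finrank K L = p ∧ α ^ p = algebraMap K L a ∧ IntermediateField.adjoin K {α} = ⊤ := by
  have H : Irreducible (X ^ p - C a) := X_pow_sub_C_irreducible_of_prime hp ha
  have : Fact (Irreducible (X ^ p - C a)) := ⟨H⟩
  have : NeZero p := ⟨hp.ne_zero⟩
  have hζ' : (primitiveRoots p K).Nonempty := ⟨ζ, (mem_primitiveRoots hp.pos).2 hζ⟩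
  have hsplit : IsSplittingField K (AdjoinRoot (X ^ p - C a)) (X ^ p - C a) :=
    isSplittingField_AdjoinRoot_X_pow_sub_C hζ' H
  have hgal : IsGalois K (AdjoinRoot (X ^ p - C a)) :=
    isGalois_of_isSplittingField_X_pow_sub_C hζ' H _
  have hcyc : IsCyclic ((AdjoinRoot (X ^ p - C a)) ≃ₐ[K] (AdjoinRoot (X ^ p - C a))) :=
    isCyclic_of_isSplittingField_X_pow_sub_C hζ' H _
  have hfin : FiniteDimensional K (AdjoinRoot (X ^ p - C a)) :=
    Polynomial.IsSplittingField.finiteDimensional _ (X ^ p - C a)
  have hnf : NumberField (AdjoinRoot (X ^ p - C a)) := NumberField.of_module_finite K _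
  refine ⟨AdjoinRoot (X ^ p - C a), inferInstance, hnf, inferInstance, hgal, hcyc,
    AdjoinRoot.root _, finrank_of_isSplittingField_X_pow_sub_C hζ' H _, ?_, ?_⟩
  · exact root_X_pow_sub_C_pow p a
  · have h := AdjoinRoot.adjoinRoot_eq_top (f := X ^ p - C a)
    rw [← IntermediateField.adjoin_simple_toSubalgebra_of_isAlgebraic
      (Algebra.IsAlgebraic.isAlgebraic _)] at h
    exact IntermediateField.toSubalgebra_injective (h.trans IntermediateField.top_toSubalgebra.symm)

end KummerNF

end Fermat.Agent.CFT
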