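import Mathlib

set_option autoImplicit false

namespace Fermat.Agent.CFT.Kummer

/-- Counting lemma: a pairing `G × B → Mˣ` of exponent dividing `n` which is non-degenerate on both
sides forces `G` to be finite with `|G| = |B|`. -/
theorem finite_and_card_eq_of_nondegenerate {G B M : Type*} [Group G] [CommGroup B] [Finite B]
    [CommMonoid M] {n : ℕ} [NeZero n] [HasEnoughRootsOfUnity M n]
    (ψ : G →* (B →* Mˣ)) (hG : Function.Injective ψ) (hB : ∀ b, (∀ g, ψ g b = 1) → b = 1)
    (hn : ∀ b : B, b ^ n = 1) : Finite G ∧ Nat.card G = Nat.card B := by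
  have hexpB : Monoid.exponent B ∣ n := Monoid.exponent_dvd_of_forall_pow_eq_one hn
  have : HasEnoughRootsOfUnity M (Monoid.exponent B) := HasEnoughRootsOfUnity.of_dvd M hexpB
  have hcardB : Nat.card (B →* Mˣ) = Nat.card B :=
    CommGroup.card_monoidHom_of_hasEnoughRootsOfUnity B M
  have : Finite (B →* Mˣ) := Nat.finite_of_card_ne_zero (by rw [hcardB]; exact Nat.card_pos.ne')
  have : Finite G := Finite.of_injective ψ hG
  refine ⟨inferInstance, ?_⟩
  let Q : Subgroup (B →* Mˣ) := ψ.range
  have e : G ≃* Q := MonoidHom.ofInjective hG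
  have hcardGQ : Nat.card G = Nat.card Q := Nat.card_congr e.toEquiv
  have hexpQ : Monoid.exponent Q ∣ n := by
    refine Monoid.exponent_dvd_of_forall_pow_eq_one fun q => ?_
    ext b
    simp only [SubmonoidClass.coe_pow, MonoidHom.pow_apply, OneMemClass.coe_one,
      MonoidHom.one_apply, Units.val_one]
    rw [← map_pow, hn, map_one, Units.val_one]
  have : HasEnoughRootsOfUnity M (Monoid.exponent Q) := HasEnoughRootsOfUnity.of_dvd M hexpQ
  have hcardQ : Nat.card (Q →* Mˣ) = Nat.card Q :=
    CommGroup.card_monoidHom_of_hasEnoughRootsOfUnity Q M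
  have : Finite (Q →* Mˣ) := Nat.finite_of_card_ne_zero (by rw [hcardQ]; exact Nat.card_pos.ne')
  let φ : B → (Q →* Mˣ) := fun b => (MonoidHom.eval b).comp Q.subtype
  have hφ : Function.Injective φ := by
    intro b b' h
    have hb : b / b' = 1 := by
      refine hB _ fun g => ?_
      have := DFunLike.congr_fun h ⟨ψ g, g, rfl⟩
      simp only [φ, MonoidHom.coe_comp, Subgroup.coe_subtype, Function.comp_apply,
        MonoidHom.eval_apply_apply] at this
      rw [map_div, this, div_self']
    exact div_eq_one.1 hb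
  have h1 : Nat.card B ≤ Nat.card Q := hcardQ ▸ Nat.card_le_card_of_injective φ hφ
  have h2 : Nat.card Q ≤ Nat.card B :=
    hcardB ▸ Nat.card_le_card_of_injective (Subtype.val : Q → (B →* Mˣ)) Subtype.val_injective
  omega

end Fermat.Agent.CFT.Kummer
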