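import Fermat.Agent.CFT.Kummer.Pairing
import Fermat.Agent.CFT.Kummer.PairingCount

set_option autoImplicit false

namespace Fermat.Agent.CFT.Kummer

open IntermediateField

section Count

variable {K L : Type*} [Field K] [Field L] [Algebra K L] {p : ℕ} [NeZero p] {ζ : K}

/-- The Kummer pairing restricted to a subgroup `Δ` of radicals, with values in `Lˣ`. -/
def kumHomSub (hζ : IsPrimitiveRoot ζ p) (Δ : Subgroup Lˣ) (hΔ : Δ ≤ radicals K L p) :
    Gal(L/K) →* (Δ →* Lˣ) where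
  toFun σ := ((rootsOfUnity p L).subtype.comp (kumHom hζ σ)).comp (Subgroup.inclusion hΔ)
  map_one' := by
    ext α
    simp
  map_mul' σ τ := by
    ext α
    simp [map_mul]

@[simp] lemma kumHomSub_apply (hζ : IsPrimitiveRoot ζ p) (Δ : Subgroup Lˣ)
    (hΔ : Δ ≤ radicals K L p) (σ : Gal(L/K)) (α : Δ) :
    kumHomSub hζ Δ hΔ σ α = kum σ (α : Lˣ) := rfl

/-- The Kummer pairing on the quotient `Δ / (Δ ∩ Kˣ)`. -/
def kumHomQuot (hζ : IsPrimitiveRoot ζ p) (Δ : Subgroup Lˣ) (hΔ : Δ ≤ radicals K L p) :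
    Gal(L/K) →* ((Δ ⧸ (baseUnits K L).subgroupOf Δ) →* Lˣ) where
  toFun σ := QuotientGroup.lift _ (kumHomSub hζ Δ hΔ σ) (by
    intro α hα
    rw [Subgroup.mem_subgroupOf] at hα
    rw [MonoidHom.mem_ker, kumHomSub_apply]
    exact kum_eq_one_of_mem_baseUnits σ hα)
  map_one' := by
    ext b
    simp
  map_mul' σ τ := by
    ext b
    simp [map_mul]

@[simp] lemma kumHomQuot_mk (hζ : IsPrimitiveRoot ζ p) (Δ : Subgroup Lˣ)
    (hΔ : Δ ≤ radicals K L p) (σ : Gal(L/K)) (α : Δ) :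
    kumHomQuot hζ Δ hΔ σ (QuotientGroup.mk α) = kum σ (α : Lˣ) := rfl

/-- The field `K(Δ)` generated by a set of units of `L`. -/
def adjoinUnits (K : Type*) {L : Type*} [Field K] [Field L] [Algebra K L] (S : Set Lˣ) :
    IntermediateField K L :=
  adjoin K ((fun α : Lˣ => (α : L)) '' S)

lemma ker_kumHomQuot (hζ : IsPrimitiveRoot ζ p) (Δ : Subgroup Lˣ) (hΔ : Δ ≤ radicals K L p) :
    (kumHomQuot hζ Δ hΔ).ker = (adjoinUnits K (Δ : Set Lˣ)).fixingSubgroup := by
  ext σ
  rw [MonoidHom.mem_ker, adjoinUnits, ← forall_kum_eq_one_iff_mem_fixingSubgroup]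
  constructor
  · intro hσ α hα
    have := DFunLike.congr_fun hσ (QuotientGroup.mk ⟨α, hα⟩)
    simpa using this
  · intro h
    ext α
    simp [h α.1 α.2]

/-- A primitive `p`-th root of unity in `K` gives `L` enough `p`-th roots of unity. -/
lemma hasEnoughRootsOfUnity_of_isPrimitiveRoot (hζ : IsPrimitiveRoot ζ p) :
    HasEnoughRootsOfUnity L p :=
  ⟨⟨algebraMap K L ζ, hζ.map_of_injective (algebraMap K L).injective⟩, inferInstance⟩

/-- **Multi-Kummer theory, index form.** Let `L/K` be Galois (possibly infinite), `μ_p ⊆ K`, and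
let `Δ` be a group of `p`-radicals with `[Δ : Δ ∩ Kˣ]` finite. Then the fixing subgroup of `K(Δ)`
has index `[Δ : Δ ∩ Kˣ]` in `Gal(L/K)`. -/
theorem index_fixingSubgroup_adjoinUnits [IsGalois K L] (hζ : IsPrimitiveRoot ζ p)
    (Δ : Subgroup Lˣ) (hΔ : Δ ≤ radicals K L p) (hfin : (baseUnits K L).relIndex Δ ≠ 0) :
    (adjoinUnits K (Δ : Set Lˣ)).fixingSubgroup.index = (baseUnits K L).relIndex Δ := by
  have : Finite (Δ ⧸ (baseUnits K L).subgroupOf Δ) := Subgroup.index_ne_zero_iff_finite.1 hfin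
  have : HasEnoughRootsOfUnity L p := hasEnoughRootsOfUnity_of_isPrimitiveRoot hζ
  have key := finite_and_card_eq_of_nondegenerate
    (B := Δ ⧸ (baseUnits K L).subgroupOf Δ) (M := L) (n := p)
    (QuotientGroup.kerLift (kumHomQuot hζ Δ hΔ)) (QuotientGroup.kerLift_injective _) ?_ ?_
  · rw [← ker_kumHomQuot hζ Δ hΔ, Subgroup.index_eq_card, key.2, Subgroup.relIndex,
      Subgroup.index_eq_card]
  · -- non-degeneracy in `Δ`
    intro b
    induction b using QuotientGroup.induction_on with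
    | H α =>
      intro h
      have h1 : ∀ σ : Gal(L/K), kum σ (α : Lˣ) = 1 := fun σ => by
        simpa using h (QuotientGroup.mk σ)
      rw [forall_kum_eq_one_iff_mem_baseUnits] at h1
      exact (QuotientGroup.eq_one_iff α).2 (Subgroup.mem_subgroupOf.2 h1)
  · -- exponent `p`
    intro b
    induction b using QuotientGroup.induction_on with
    | H α =>
      rw [← QuotientGroup.mk_pow]
      exact (QuotientGroup.eq_one_iff _).2 (Subgroup.mem_subgroupOf.2 (hΔ α.2))

/-- **Multi-Kummer theory, degree form.** `[K(Δ) : K] = [Δ : Δ ∩ Kˣ]`. -/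
theorem finrank_adjoinUnits [IsGalois K L] (hζ : IsPrimitiveRoot ζ p)
    (Δ : Subgroup Lˣ) (hΔ : Δ ≤ radicals K L p) (hfin : (baseUnits K L).relIndex Δ ≠ 0) :
    Module.finrank K (adjoinUnits K (Δ : Set Lˣ)) = (baseUnits K L).relIndex Δ := by
  rw [IntermediateField.finrank_eq_fixingSubgroup_index,
    index_fixingSubgroup_adjoinUnits hζ Δ hΔ hfin]

lemma finiteDimensional_adjoinUnits [IsGalois K L] (hζ : IsPrimitiveRoot ζ p)
    (Δ : Subgroup Lˣ) (hΔ : Δ ≤ radicals K L p) (hfin : (baseUnits K L).relIndex Δ ≠ 0) :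
    FiniteDimensional K (adjoinUnits K (Δ : Set Lˣ)) :=
  Module.finite_of_finrank_pos (by
    rw [finrank_adjoinUnits hζ Δ hΔ hfin]
    exact Nat.pos_of_ne_zero hfin)

end Count

end Fermat.Agent.CFT.Kummer
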