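/-
Kummer theory: `K(Δ)/K` is Galois, abelian of exponent `p` for any set `Δ` of `p`-radicals
(`μ_p ⊆ K`).
-/
import Fermat.Agent.CFT.Kummer.Multi

set_option autoImplicit false

namespace Fermat.Agent.CFT.Kummer

open IntermediateField

section Abelian

variable {K L : Type*} [Field K] [Field L] [Algebra K L] {p : ℕ} [NeZero p] {ζ : K}

/-- For a radical `α` and a `K`-automorphism `σ` of `L`, `σ α = η α` with `η ∈ Kˣ`. -/
lemma exists_base_mul_eq (hζ : IsPrimitiveRoot ζ p) (σ : Gal(L/K)) {α : Lˣ}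
    (hα : α ∈ radicals K L p) : ∃ c : K, c ^ p = 1 ∧ σ (α : L) = algebraMap K L c * (α : L) := by
  have h1 := kum_mem_rootsOfUnity σ hα
  obtain ⟨c, hc⟩ := mem_baseUnits_iff.1 (mem_baseUnits_of_mem_rootsOfUnity hζ h1)
  refine ⟨c, ?_, ?_⟩
  · apply (algebraMap K L).injective
    rw [map_pow, hc, map_one, ← Units.val_pow_eq_pow_val, (mem_rootsOfUnity _ _).1 h1,
      Units.val_one]
  · rw [hc, kum_val, div_mul_cancel₀ _ α.ne_zero]

/-- `K(S)/K` is normal for every set `S` of `p`-radicals. -/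
theorem normal_adjoinUnits [Normal K L] (hζ : IsPrimitiveRoot ζ p) {S : Set Lˣ}
    (hS : S ⊆ radicals K L p) : Normal K (adjoinUnits K S) := by
  rw [IntermediateField.normal_iff_forall_map_le']
  intro σ
  rw [adjoinUnits, IntermediateField.adjoin_map, IntermediateField.adjoin_le_iff]
  rintro _ ⟨_, ⟨α, hα, rfl⟩, rfl⟩
  obtain ⟨c, -, hc⟩ := exists_base_mul_eq hζ σ (hS hα)
  have hc' : (σ : L →ₐ[K] L) (α : L) = algebraMap K L c * (α : L) := hc
  rw [hc']
  exact mul_mem (IntermediateField.algebraMap_mem _ c) (subset_adjoin K _ ⟨α, hα, rfl⟩)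

theorem isGalois_adjoinUnits [IsGalois K L] (hζ : IsPrimitiveRoot ζ p) {S : Set Lˣ}
    (hS : S ⊆ radicals K L p) : IsGalois K (adjoinUnits K S) := by
  have := normal_adjoinUnits hζ hS
  exact ⟨⟩

/-- Every `K`-automorphism of `K(S)` multiplies each radical generator by a `p`-th root of unity
of `K`. -/
lemma exists_base_mul_eq' (hζ : IsPrimitiveRoot ζ p) {S : Set Lˣ} (hS : S ⊆ radicals K L p)
    (σ : Gal(adjoinUnits K S/K)) {α : Lˣ} (hα : α ∈ S) :
    ∃ c : K, c ^ p = 1 ∧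
      σ ⟨(α : L), subset_adjoin K _ ⟨α, hα, rfl⟩⟩ =
        algebraMap K (adjoinUnits K S) c * ⟨(α : L), subset_adjoin K _ ⟨α, hα, rfl⟩⟩ := by
  set x : adjoinUnits K S := ⟨(α : L), subset_adjoin K _ ⟨α, hα, rfl⟩⟩ with hx
  obtain ⟨a, ha⟩ := mem_radicals_iff.1 (hS hα)
  have hx0 : x ≠ 0 := by
    intro h
    exact α.ne_zero (congrArg Subtype.val h)
  have hxp : x ^ p = algebraMap K (adjoinUnits K S) a := by
    apply Subtype.ext
    simpa using ha.symm
  have h1 : (σ x / x) ^ p = 1 := by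
    rw [div_pow, ← map_pow, hxp, σ.commutes, div_self]
    rw [← hxp]
    exact pow_ne_zero _ hx0
  -- `σ x / x` is a `p`-th root of unity, hence in `K`
  have hζ' : IsPrimitiveRoot (algebraMap K (adjoinUnits K S) ζ) p :=
    hζ.map_of_injective (algebraMap K (adjoinUnits K S)).injective
  obtain ⟨i, -, hi⟩ := hζ'.eq_pow_of_pow_eq_one h1
  refine ⟨ζ ^ i, by rw [← pow_mul, mul_comm, pow_mul, hζ.pow_eq_one, one_pow], ?_⟩
  rw [map_pow, hi, div_mul_cancel₀ _ hx0]

/-- `Gal(K(S)/K)` is commutative. -/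
theorem gal_adjoinUnits_mul_comm (hζ : IsPrimitiveRoot ζ p) {S : Set Lˣ}
    (hS : S ⊆ radicals K L p) (σ τ : Gal(adjoinUnits K S/K)) : σ * τ = τ * σ := by
  have h : ((σ * τ : Gal(adjoinUnits K S/K)) : adjoinUnits K S →ₐ[K] adjoinUnits K S) =
      ((τ * σ : Gal(adjoinUnits K S/K)) : adjoinUnits K S →ₐ[K] adjoinUnits K S) := by
    refine algHom_ext_of_eq_adjoin (F := K) (S := adjoinUnits K S)
      (s := (fun α : Lˣ => (α : L)) '' S) rfl ?_
    rintro _ ⟨α, hα, rfl⟩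
    obtain ⟨c, -, hc⟩ := exists_base_mul_eq' hζ hS σ hα
    obtain ⟨d, -, hd⟩ := exists_base_mul_eq' hζ hS τ hα
    change σ (τ ⟨(α : L), subset_adjoin K _ ⟨α, hα, rfl⟩⟩) =
      τ (σ ⟨(α : L), subset_adjoin K _ ⟨α, hα, rfl⟩⟩)
    rw [hd, hc, map_mul, map_mul, σ.commutes, τ.commutes, hc, hd]
    ring
  ext x
  exact congrArg Subtype.val (DFunLike.congr_fun h x)

/-- `Gal(K(S)/K)` has exponent dividing `p`. -/
theorem gal_adjoinUnits_pow_eq_one (hζ : IsPrimitiveRoot ζ p) {S : Set Lˣ}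
    (hS : S ⊆ radicals K L p) (σ : Gal(adjoinUnits K S/K)) : σ ^ p = 1 := by
  have hpow : ∀ (n : ℕ) (c : K) (x : adjoinUnits K S),
      σ x = algebraMap K (adjoinUnits K S) c * x →
      (σ ^ n) x = algebraMap K (adjoinUnits K S) (c ^ n) * x := by
    intro n c x hx
    induction n with
    | zero => simp
    | succ n ih =>
      rw [pow_succ', AlgEquiv.mul_apply, ih, map_mul, σ.commutes, hx, pow_succ, map_mul]
      ring
  have h : ((σ ^ p : Gal(adjoinUnits K S/K)) : adjoinUnits K S →ₐ[K] adjoinUnits K S) =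
      ((1 : Gal(adjoinUnits K S/K)) : adjoinUnits K S →ₐ[K] adjoinUnits K S) := by
    refine algHom_ext_of_eq_adjoin (F := K) (S := adjoinUnits K S)
      (s := (fun α : Lˣ => (α : L)) '' S) rfl ?_
    rintro _ ⟨α, hα, rfl⟩
    obtain ⟨c, hcp, hc⟩ := exists_base_mul_eq' hζ hS σ hα
    change (σ ^ p) ⟨(α : L), subset_adjoin K _ ⟨α, hα, rfl⟩⟩ =
      ⟨(α : L), subset_adjoin K _ ⟨α, hα, rfl⟩⟩
    rw [hpow p c _ hc, hcp, map_one, one_mul]
  ext x
  exact congrArg Subtype.val (DFunLike.congr_fun h x)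

end Abelian

end Fermat.Agent.CFT.Kummer
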