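/-
Multi-Kummer theory, `K`-side form: for a subgroup `D ≤ Kˣ` all of whose elements have `p`-th roots
in the Galois extension `L/K` (`μ_p ⊆ K`):  `[K(D^{1/p}) : K] = [D : D ∩ Kˣᵖ]`.
-/
import Fermat.Agent.CFT.Kummer.Multi

set_option autoImplicit false

namespace Fermat.Agent.CFT.Kummer

open IntermediateField

section Base

variable {K : Type*} (L : Type*) [Field K] [Field L] [Algebra K L] (p : ℕ)

/-- The units `α` of `L` with `α ^ p ∈ D` (for `D ≤ Kˣ`). -/
def radicalsOf (D : Subgroup Kˣ) : Subgroup Lˣ :=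
  (D.map (Units.map (algebraMap K L : K →* L))).comap (powMonoidHom p)

variable {L p}

lemma mem_radicalsOf_iff {D : Subgroup Kˣ} {α : Lˣ} :
    α ∈ radicalsOf L p D ↔ ∃ d ∈ D, algebraMap K L (d : K) = (α : L) ^ p := by
  unfold radicalsOf
  rw [Subgroup.mem_comap, Subgroup.mem_map]
  constructor
  · rintro ⟨d, hd, h⟩
    refine ⟨d, hd, ?_⟩
    have := congrArg (fun u : Lˣ => (u : L)) h
    simpa using this
  · rintro ⟨d, hd, h⟩
    exact ⟨d, hd, Units.ext (by simpa using h)⟩

lemma radicalsOf_le_radicals (D : Subgroup Kˣ) : radicalsOf L p D ≤ radicals K L p := by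
  intro α hα
  obtain ⟨d, -, h⟩ := mem_radicalsOf_iff.1 hα
  exact mem_radicals_iff.2 ⟨d, h⟩

lemma radicalsOf_mono {D D' : Subgroup Kˣ} (h : D ≤ D') : radicalsOf L p D ≤ radicalsOf L p D' :=
  Subgroup.comap_mono (Subgroup.map_mono h)

lemma baseUnits_inf_radicalsOf_eq [NeZero p] {ζ : K} (hζ : IsPrimitiveRoot ζ p) (D : Subgroup Kˣ) :
    (((powMonoidHom p : Kˣ →* Kˣ).range.map (Units.map (algebraMap K L : K →* L))).comap
      ((powMonoidHom p).comp (radicalsOf L p D).subtype)) =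
    (baseUnits K L).subgroupOf (radicalsOf L p D) := by
  ext α
  rw [Subgroup.mem_comap, Subgroup.mem_subgroupOf, Subgroup.mem_map]
  constructor
  · rintro ⟨c, ⟨c', rfl⟩, h⟩
    -- `(ι c') ^ p = α ^ p`, so `α / ι c'` is a `p`-th root of unity, hence in `Kˣ`
    have h1 : ((α : Lˣ) / Units.map (algebraMap K L : K →* L) c') ∈ rootsOfUnity p L := by
      rw [mem_rootsOfUnity, div_pow]
      have : (Units.map (algebraMap K L : K →* L) c') ^ p = (α : Lˣ) ^ p := by
        simpa using h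
      rw [this, div_self']
    have h2 := mem_baseUnits_of_mem_rootsOfUnity hζ h1
    have h3 : Units.map (algebraMap K L : K →* L) c' ∈ baseUnits K L := ⟨c', rfl⟩
    have := (baseUnits K L).mul_mem h2 h3
    rwa [div_mul_cancel] at this
  · rintro ⟨c, hc⟩
    refine ⟨c ^ p, ⟨c, rfl⟩, ?_⟩
    simp [← hc]

/-- `[Δ_D : Δ_D ∩ Kˣ] = [D : D ∩ Kˣᵖ]` where `Δ_D = {α : α ^ p ∈ D}`. -/
theorem relIndex_radicalsOf [NeZero p] {ζ : K} (hζ : IsPrimitiveRoot ζ p) (D : Subgroup Kˣ)
    (hroot : ∀ d ∈ D, ∃ α : L, α ^ p = algebraMap K L (d : K)) :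
    (baseUnits K L).relIndex (radicalsOf L p D) = (powMonoidHom p : Kˣ →* Kˣ).range.relIndex D := by
  have hι : Function.Injective (Units.map (algebraMap K L : K →* L)) :=
    Units.map_injective (algebraMap K L).injective
  have hrange : ((powMonoidHom p).comp (radicalsOf L p D).subtype).range =
      D.map (Units.map (algebraMap K L : K →* L)) := by
    apply le_antisymm
    · rintro _ ⟨α, rfl⟩
      exact α.2
    · rintro _ ⟨d, hd, rfl⟩
      obtain ⟨α, hα⟩ := hroot d hd
      have hα0 : α ≠ 0 := by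
        rintro rfl
        rw [zero_pow (NeZero.ne p)] at hα
        exact (Units.ne_zero d) ((algebraMap K L).injective (by rw [← hα, map_zero]))
      refine ⟨⟨Units.mk0 α hα0, mem_radicalsOf_iff.2 ⟨d, hd, by simpa using hα.symm⟩⟩, ?_⟩
      apply Units.ext
      simpa using hα
  rw [Subgroup.relIndex, ← baseUnits_inf_radicalsOf_eq hζ D, Subgroup.index_comap, hrange,
    Subgroup.relIndex_map_map_of_injective _ _ hι]

/-- **Multi-Kummer degree formula, `K`-side form**: `[K(D^{1/p}) : K] = [D : D ∩ Kˣᵖ]`. -/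
theorem finrank_adjoinUnits_radicalsOf [NeZero p] [IsGalois K L] {ζ : K}
    (hζ : IsPrimitiveRoot ζ p) (D : Subgroup Kˣ)
    (hroot : ∀ d ∈ D, ∃ α : L, α ^ p = algebraMap K L (d : K))
    (hfin : (powMonoidHom p : Kˣ →* Kˣ).range.relIndex D ≠ 0) :
    Module.finrank K (adjoinUnits K (radicalsOf L p D : Set Lˣ)) =
      (powMonoidHom p : Kˣ →* Kˣ).range.relIndex D := by
  rw [finrank_adjoinUnits hζ _ (radicalsOf_le_radicals D) (by rwa [relIndex_radicalsOf hζ D hroot]),
    relIndex_radicalsOf hζ D hroot]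

/-- `K(D^{1/p})` is generated by any choice of one `p`-th root per element of a generating set. -/
lemma adjoinUnits_radicalsOf_eq_adjoin [NeZero p]
    (D : Subgroup Kˣ) : adjoinUnits K (radicalsOf L p D : Set Lˣ) =
      adjoin K {x : L | ∃ d ∈ D, x ^ p = algebraMap K L (d : K)} := by
  unfold adjoinUnits
  congr 1
  ext x
  constructor
  · rintro ⟨α, hα, rfl⟩
    obtain ⟨d, hd, h⟩ := mem_radicalsOf_iff.1 hα
    exact ⟨d, hd, h.symm⟩
  · rintro ⟨d, hd, h⟩
    have hx0 : x ≠ 0 := by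
      rintro rfl
      rw [zero_pow (NeZero.ne p)] at h
      exact (Units.ne_zero d) ((algebraMap K L).injective (by rw [← h, map_zero]))
    exact ⟨Units.mk0 x hx0, mem_radicalsOf_iff.2 ⟨d, hd, by simpa using h.symm⟩, rfl⟩

end Base

end Fermat.Agent.CFT.Kummer
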