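/-
Kummer theory + `S`-unit theorem: `[K(U_S^{1/p}) : K] = p ^ (rank + |S|) * |μ_p(K)|`
(input C7b for the global existence theorem mod `p`).
-/
import Fermat.Agent.CFT.Kummer.MultiBase
import Fermat.Agent.CFT.Global.SUnitsCount

set_option autoImplicit false

namespace Fermat.Agent.CFT.Kummer

open IntermediateField IsDedekindDomain

section SUnit

variable {R : Type*} [CommRing R] [IsDedekindDomain R] (K : Type*) [Field K] [Algebra R K]
  [IsFractionRing R K] (S : Set (HeightOneSpectrum R))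

/-- If `y ^ p` is an `S`-unit (`p ≠ 0`) then so is `y`. -/
lemma mem_sUnit_of_pow_mem {p : ℕ} (hp : p ≠ 0) {y : Kˣ} (hy : y ^ p ∈ S.unit K) :
    y ∈ S.unit K := by
  intro v hv
  have h := hy v hv
  rw [Units.val_pow_eq_pow_val, map_pow] at h
  exact (pow_eq_one_iff_of_nonneg zero_le hp).1 h

/-- `[U_S : U_S ∩ Kˣᵖ] = [U_S : U_Sᵖ]`. -/
lemma relIndex_range_pow_sUnit {p : ℕ} (hp : p ≠ 0) :
    (powMonoidHom p : Kˣ →* Kˣ).range.relIndex (S.unit K) =
      (powMonoidHom p : S.unit K →* S.unit K).range.index := by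
  rw [Subgroup.relIndex]
  congr 1
  ext x
  rw [Subgroup.mem_subgroupOf]
  constructor
  · rintro ⟨y, hy⟩
    have hyS : y ∈ S.unit K := mem_sUnit_of_pow_mem K S hp (by
      have : y ^ p = (x : Kˣ) := hy
      rw [this]
      exact x.2)
    exact ⟨⟨y, hyS⟩, Subtype.ext hy⟩
  · rintro ⟨y, hy⟩
    exact ⟨(y : Kˣ), congrArg Subtype.val hy⟩

variable [Finite (ClassGroup R)] [Finite S] [Module.Finite ℤ (Additive Rˣ)]

/-- **`[K(U_S^{1/p}) : K] = p ^ (rank Rˣ + |S|) * |μ_p(K)|`.** -/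
theorem finrank_adjoinUnits_radicalsOf_sUnit {L : Type*} [Field L] [Algebra K L] [IsGalois K L]
    {p : ℕ} [NeZero p] {ζ : K} (hζ : IsPrimitiveRoot ζ p)
    (hroot : ∀ d ∈ S.unit K, ∃ α : L, α ^ p = algebraMap K L (d : K)) :
    Module.finrank K (adjoinUnits K (radicalsOf L p (S.unit K) : Set Lˣ)) =
      p ^ (Module.finrank ℤ (Additive Rˣ) + Nat.card S) * Nat.card (rootsOfUnity p K) := by
  have hidx := Fermat.Agent.CFT.SUnits.index_range_pow_sUnit K S p
  have hfin : (powMonoidHom p : Kˣ →* Kˣ).range.relIndex (S.unit K) ≠ 0 := by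
    rw [relIndex_range_pow_sUnit K S (NeZero.ne p), hidx]
    have hpos : 0 < Nat.card (rootsOfUnity p K) := Nat.card_pos
    exact (Nat.mul_pos (pow_pos (Nat.pos_of_ne_zero (NeZero.ne p)) _) hpos).ne'
  rw [finrank_adjoinUnits_radicalsOf hζ (S.unit K) hroot hfin,
    relIndex_range_pow_sUnit K S (NeZero.ne p), hidx]

end SUnit

section NumberFieldCase

open NumberField

variable (K : Type*) [Field K] [NumberField K] (S : Set (HeightOneSpectrum (𝓞 K))) [Finite S]

/-- Number field case: `[K(U_S^{1/p}) : K] = p ^ (r₁ + r₂ + |S|)` when `μ_p ⊆ K` (`p` prime). -/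
theorem finrank_adjoinUnits_radicalsOf_sUnit_numberField {L : Type*} [Field L] [Algebra K L]
    [IsGalois K L] {p : ℕ} [hp : Fact p.Prime] {ζ : K} (hζ : IsPrimitiveRoot ζ p)
    (hroot : ∀ d ∈ S.unit K, ∃ α : L, α ^ p = algebraMap K L (d : K)) :
    Module.finrank K (adjoinUnits K (radicalsOf L p (S.unit K) : Set Lˣ)) =
      p ^ (NumberField.Units.rank K + Nat.card S + 1) := by
  have : NeZero p := ⟨hp.out.ne_zero⟩
  rw [finrank_adjoinUnits_radicalsOf_sUnit K S hζ hroot, NumberField.Units.finrank_eq,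
    hζ.card_rootsOfUnity, pow_succ]

end NumberFieldCase

end Fermat.Agent.CFT.Kummer
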