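/-
C7 (H-ii): the Kummer field `M_T = K(U_T^{1/p})` of the `T`-units as a TYPE, with all the properties
consumed by the assembly of the global existence theorem mod `p`.
-/
import Fermat.Agent.CFT.Kummer.SUnitKummer
import Fermat.Agent.CFT.Kummer.Abelian

set_option autoImplicit false

namespace Fermat.Agent.CFT.Kummer

open IntermediateField IsDedekindDomain NumberField

/-- **The Kummer field of the `T`-units** (`μ_p ⊆ K`): a finite Galois extension `M / K` of number
fields, abelian of exponent `p`, of degree `p ^ (rank 𝓞_K^× + |T| + 1)`, in which every `T`-unit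
becomes a `p`-th power and which is generated by these `p`-th roots. -/
theorem exists_sUnit_kummer_field (K : Type) [Field K] [NumberField K]
    (T : Set (HeightOneSpectrum (𝓞 K))) [Finite T] (p : ℕ) [hp : Fact p.Prime] {ζ : K}
    (hζ : IsPrimitiveRoot ζ p) :
    ∃ (M : Type) (_ : Field M) (_ : NumberField M) (_ : Algebra K M) (_ : FiniteDimensional K M)
      (_ : IsGalois K M),
      (∀ σ : M ≃ₐ[K] M, σ ^ p = 1) ∧ (∀ σ τ : M ≃ₐ[K] M, σ * τ = τ * σ) ∧
      Module.finrank K M = p ^ (NumberField.Units.rank K + Nat.card T + 1) ∧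
      (∀ u ∈ T.unit K, ∃ α : M, α ^ p = algebraMap K M (u : K)) ∧
      IntermediateField.adjoin K
        {α : M | ∃ u ∈ T.unit K, α ^ p = algebraMap K M (u : K)} = ⊤ := by
  have : NeZero p := ⟨hp.out.ne_zero⟩
  let L := AlgebraicClosure K
  have hroot : ∀ d ∈ T.unit K, ∃ α : L, α ^ p = algebraMap K L (d : K) := fun d _ =>
    IsAlgClosed.exists_pow_nat_eq _ hp.out.pos
  have hS : (radicalsOf L p (T.unit K) : Set Lˣ) ⊆ radicals K L p :=
    radicalsOf_le_radicals (T.unit K)
  set M0 : IntermediateField K L := adjoinUnits K (radicalsOf L p (T.unit K) : Set Lˣ) with hM0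
  have hfin : Module.finrank K M0 = p ^ (NumberField.Units.rank K + Nat.card T + 1) :=
    finrank_adjoinUnits_radicalsOf_sUnit_numberField K T hζ hroot
  have hfd : FiniteDimensional K M0 := by
    apply Module.finite_of_finrank_pos
    rw [hfin]
    exact pow_pos hp.out.pos _
  have hnf : NumberField M0 := NumberField.of_module_finite K M0
  have hgal : IsGalois K M0 := isGalois_adjoinUnits hζ hS
  have hM0' : M0 = adjoin K {x : L | ∃ d ∈ T.unit K, x ^ p = algebraMap K L (d : K)} :=
    adjoinUnits_radicalsOf_eq_adjoin (T.unit K)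
  refine ⟨M0, inferInstance, hnf, inferInstance, hfd, hgal,
    gal_adjoinUnits_pow_eq_one hζ hS, gal_adjoinUnits_mul_comm hζ hS, hfin, ?_, ?_⟩
  · intro u hu
    obtain ⟨α, hα⟩ := hroot u hu
    have hmem : α ∈ M0 := by
      rw [hM0']
      exact subset_adjoin K _ ⟨u, hu, hα⟩
    exact ⟨⟨α, hmem⟩, Subtype.ext hα⟩
  · apply IntermediateField.map_injective M0.val
    rw [IntermediateField.adjoin_map, ← AlgHom.fieldRange_eq_map, fieldRange_val]
    conv_rhs => rw [hM0']
    congr 1
    ext x
    constructor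
    · rintro ⟨α, ⟨u, hu, hα⟩, rfl⟩
      exact ⟨u, hu, congrArg Subtype.val hα⟩
    · rintro ⟨u, hu, hx⟩
      have hmem : x ∈ M0 := by
        rw [hM0']
        exact subset_adjoin K _ ⟨u, hu, hx⟩
      exact ⟨⟨x, hmem⟩, ⟨u, hu, Subtype.ext hx⟩, rfl⟩

end Fermat.Agent.CFT.Kummer
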