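/-
Kummer theory (S55, Layer B5 / C7): the Kummer pairing for a Galois extension `L/K`
(finite or infinite) with `μ_p ⊆ K`.

* `radicals K L p` : the units `α` of `L` with `α ^ p ∈ Kˣ`;
* `baseUnits K L`  : the image of `Kˣ` in `Lˣ`;
* `kum σ α = σ α / α`, bimultiplicative with values in `μ_p(L)`;
* left kernel: `σ` pairs trivially with `Δ` iff `σ` fixes `K(Δ)`;
* right kernel (for `L/K` Galois): `α` pairs trivially with all `σ` iff `α ∈ Kˣ`.
-/
import Mathlib

set_option autoImplicit false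

namespace Fermat.Agent.CFT.Kummer

open IntermediateField

section Defs

variable (K L : Type*) [Field K] [Field L] [Algebra K L] (p : ℕ)

/-- The image of `Kˣ` in `Lˣ`. -/
def baseUnits : Subgroup Lˣ := (Units.map (algebraMap K L : K →* L)).range

/-- The units `α` of `L` with `α ^ p ∈ Kˣ`. -/
def radicals : Subgroup Lˣ := (baseUnits K L).comap (powMonoidHom p)

variable {K L p}

lemma mem_baseUnits_iff {α : Lˣ} : α ∈ baseUnits K L ↔ ∃ a : K, algebraMap K L a = (α : L) := by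
  constructor
  · rintro ⟨a, rfl⟩
    exact ⟨a, rfl⟩
  · rintro ⟨a, ha⟩
    have ha0 : a ≠ 0 := by
      rintro rfl
      rw [map_zero] at ha
      exact α.ne_zero ha.symm
    exact ⟨Units.mk0 a ha0, Units.ext (by simpa using ha)⟩

lemma mem_radicals_iff {α : Lˣ} :
    α ∈ radicals K L p ↔ ∃ a : K, algebraMap K L a = (α : L) ^ p := by
  unfold radicals
  rw [Subgroup.mem_comap, mem_baseUnits_iff]
  simp

lemma baseUnits_le_radicals : baseUnits K L ≤ radicals K L p := by
  intro α hα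
  obtain ⟨a, ha⟩ := mem_baseUnits_iff.1 hα
  exact mem_radicals_iff.2 ⟨a ^ p, by rw [map_pow, ha]⟩

lemma rootsOfUnity_le_radicals : rootsOfUnity p L ≤ radicals K L p := by
  intro η hη
  rw [mem_rootsOfUnity] at hη
  refine mem_radicals_iff.2 ⟨1, ?_⟩
  rw [map_one, ← Units.val_pow_eq_pow_val, hη, Units.val_one]

lemma pow_mem_baseUnits {α : Lˣ} (hα : α ∈ radicals K L p) : α ^ p ∈ baseUnits K L := hα

end Defs

section Kum

variable {K L : Type*} [Field K] [Field L] [Algebra K L] {p : ℕ}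

/-- The Kummer symbol `σ α / α`. -/
def kum (σ : Gal(L/K)) (α : Lˣ) : Lˣ := Units.map (σ : L →* L) α / α

@[simp] lemma kum_val (σ : Gal(L/K)) (α : Lˣ) : ((kum σ α : Lˣ) : L) = σ α / α := by
  simp [kum, Units.val_div_eq_div_val]

lemma kum_mul_right (σ : Gal(L/K)) (α β : Lˣ) : kum σ (α * β) = kum σ α * kum σ β := by
  simp only [kum, map_mul]
  rw [mul_div_mul_comm]

@[simp] lemma kum_one_right (σ : Gal(L/K)) : kum σ (1 : Lˣ) = 1 := by
  simp [kum]

@[simp] lemma kum_one_left (α : Lˣ) : kum (1 : Gal(L/K)) α = 1 := by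
  ext
  simp

lemma kum_eq_one_iff {σ : Gal(L/K)} {α : Lˣ} : kum σ α = 1 ↔ σ α = α := by
  rw [Units.ext_iff, kum_val, Units.val_one, div_eq_one_iff_eq α.ne_zero]

lemma kum_eq_one_of_mem_baseUnits (σ : Gal(L/K)) {α : Lˣ} (hα : α ∈ baseUnits K L) :
    kum σ α = 1 := by
  obtain ⟨a, ha⟩ := mem_baseUnits_iff.1 hα
  rw [kum_eq_one_iff, ← ha, σ.commutes]

lemma kum_mem_rootsOfUnity (σ : Gal(L/K)) {α : Lˣ} (hα : α ∈ radicals K L p) :
    kum σ α ∈ rootsOfUnity p L := by
  obtain ⟨a, ha⟩ := mem_radicals_iff.1 hα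
  rw [mem_rootsOfUnity, Units.ext_iff, Units.val_pow_eq_pow_val, kum_val, Units.val_one, div_pow,
    ← map_pow, ← ha, σ.commutes, div_self]
  rw [ha]
  exact pow_ne_zero _ α.ne_zero

end Kum

section Roots

variable {K L : Type*} [Field K] [Field L] [Algebra K L] {p : ℕ}

/-- If `K` contains a primitive `p`-th root of unity, every `p`-th root of unity of `L` lies in
`K`. -/
lemma mem_baseUnits_of_mem_rootsOfUnity [NeZero p] {ζ : K} (hζ : IsPrimitiveRoot ζ p) {η : Lˣ}
    (hη : η ∈ rootsOfUnity p L) : η ∈ baseUnits K L := by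
  have hζ' : IsPrimitiveRoot (algebraMap K L ζ) p := hζ.map_of_injective (algebraMap K L).injective
  rw [mem_rootsOfUnity, Units.ext_iff, Units.val_pow_eq_pow_val, Units.val_one] at hη
  obtain ⟨i, -, hi⟩ := hζ'.eq_pow_of_pow_eq_one hη
  exact mem_baseUnits_iff.2 ⟨ζ ^ i, by rw [map_pow, hi]⟩

lemma kum_mul_left [NeZero p] {ζ : K} (hζ : IsPrimitiveRoot ζ p) (σ τ : Gal(L/K)) {α : Lˣ}
    (hα : α ∈ radicals K L p) : kum (σ * τ) α = kum σ α * kum τ α := by
  have h1 : kum σ (kum τ α) = 1 :=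
    kum_eq_one_of_mem_baseUnits σ (mem_baseUnits_of_mem_rootsOfUnity hζ (kum_mem_rootsOfUnity τ hα))
  rw [kum_eq_one_iff, kum_val, map_div₀] at h1
  ext
  simp only [kum_val, Units.val_mul, AlgEquiv.mul_apply]
  have hα0 : (α : L) ≠ 0 := α.ne_zero
  have hσα0 : σ α ≠ 0 := by simpa using hα0
  field_simp
  field_simp at h1
  linear_combination h1

end Roots

section Hom

variable {K L : Type*} [Field K] [Field L] [Algebra K L] {p : ℕ} [NeZero p] {ζ : K}

/-- The Kummer pairing `Gal(L/K) × radicals → μ_p(L)` as a homomorphism. -/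
def kumHom (hζ : IsPrimitiveRoot ζ p) : Gal(L/K) →* (radicals K L p →* rootsOfUnity p L) where
  toFun σ :=
    { toFun := fun α => ⟨kum σ α, kum_mem_rootsOfUnity σ α.2⟩
      map_one' := by ext; simp
      map_mul' := fun α β => by
        ext
        simp [kum_mul_right] }
  map_one' := by
    ext α
    simp
  map_mul' σ τ := by
    ext α
    simp [kum_mul_left hζ σ τ α.2]

@[simp] lemma kumHom_apply (hζ : IsPrimitiveRoot ζ p) (σ : Gal(L/K)) (α : radicals K L p) :
    ((kumHom hζ σ α : rootsOfUnity p L) : Lˣ) = kum σ (α : Lˣ) := rfl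

/-- Left kernel: `σ` pairs trivially with a set `S` of units iff it fixes `K(S)`. -/
lemma forall_kum_eq_one_iff_mem_fixingSubgroup (S : Set Lˣ) (σ : Gal(L/K)) :
    (∀ α ∈ S, kum σ α = 1) ↔ σ ∈ (adjoin K ((fun α : Lˣ => (α : L)) '' S)).fixingSubgroup := by
  rw [IntermediateField.mem_fixingSubgroup_iff]
  have := forall_mem_adjoin_smul_eq_self_iff K (S := (fun α : Lˣ => (α : L)) '' S) σ
  simp only [AlgEquiv.smul_def] at this
  rw [this]
  simp [kum_eq_one_iff]

/-- Right kernel: for `L/K` Galois, `α` pairs trivially with every `σ` iff `α ∈ Kˣ`. -/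
lemma forall_kum_eq_one_iff_mem_baseUnits [IsGalois K L] (α : Lˣ) :
    (∀ σ : Gal(L/K), kum σ α = 1) ↔ α ∈ baseUnits K L := by
  rw [mem_baseUnits_iff]
  simp only [kum_eq_one_iff]
  exact (InfiniteGalois.mem_range_algebraMap_iff_fixed (k := K) (K := L) (α : L)).symm

end Hom

end Fermat.Agent.CFT.Kummer
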