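/-
Kummer theory: every character `χ : Gal(L/K) → Kˣ` of finite level is a Kummer character
`σ ↦ σ β / β` (Hilbert 90), for finite or infinite Galois `L/K`.
-/
import Fermat.Agent.CFT.Kummer.Pairing

set_option autoImplicit false

namespace Fermat.Agent.CFT.Kummer

open IntermediateField groupCohomology

section Finite

variable {K L : Type*} [Field K] [Field L] [Algebra K L]

/-- **Hilbert 90 for characters, finite level.** -/
theorem exists_kum_eq_of_finiteDimensional [FiniteDimensional K L] (χ : Gal(L/K) →* Kˣ) :
    ∃ β : Lˣ, ∀ σ : Gal(L/K), kum σ β = Units.map (algebraMap K L : K →* L) (χ σ) := by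
  have hcoc : IsMulCocycle₁ (fun σ : Gal(L/K) => Units.map (algebraMap K L : K →* L) (χ σ)) := by
    intro g h
    beta_reduce
    have hfix : g • Units.map (algebraMap K L : K →* L) (χ h) =
        Units.map (algebraMap K L : K →* L) (χ h) := by
      ext
      simp [AlgEquiv.smul_units_def]
    rw [hfix, map_mul, map_mul, mul_comm]
  obtain ⟨β, hβ⟩ := isMulCoboundary₁_of_isMulCocycle₁_of_aut_to_units _ hcoc
  refine ⟨β, fun σ => ?_⟩
  have := hβ σ
  beta_reduce at this
  rw [← this, kum, AlgEquiv.smul_units_def]

end Finite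

section Radical

variable {K L : Type*} [Field K] [Field L] [Algebra K L] {p : ℕ}

/-- A unit whose Kummer symbols are all `p`-torsion is a `p`-radical. -/
lemma mem_radicals_of_forall_kum_pow_eq_one [IsGalois K L] {β : Lˣ}
    (h : ∀ σ : Gal(L/K), kum σ β ^ p = 1) : β ∈ radicals K L p := by
  rw [radicals, Subgroup.mem_comap, powMonoidHom_apply, ← forall_kum_eq_one_iff_mem_baseUnits]
  intro σ
  have : kum σ (β ^ p) = kum σ β ^ p := by
    ext
    simp [div_pow]
  rw [this, h σ]

end Radical

section Infinite

variable {K L : Type*} [Field K] [Field L] [Algebra K L]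

/-- **Hilbert 90 for characters, infinite Galois extensions.** A character `χ : Gal(L/K) → Kˣ`
that is trivial on the fixing subgroup of a finite subextension is a Kummer character. -/
theorem exists_kum_eq [IsGalois K L] (χ : Gal(L/K) →* Kˣ) (E : IntermediateField K L)
    [FiniteDimensional K E] (hE : E.fixingSubgroup ≤ χ.ker) :
    ∃ β : Lˣ, ∀ σ : Gal(L/K), kum σ β = Units.map (algebraMap K L : K →* L) (χ σ) := by
  -- pass to the normal closure
  let E' : IntermediateField K L := IntermediateField.normalClosure K E L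
  have hEE' : E ≤ E' := IntermediateField.le_normalClosure E
  have hE' : E'.fixingSubgroup ≤ χ.ker := (IntermediateField.fixingSubgroup_antitone hEE').trans hE
  have hker : (AlgEquiv.restrictNormalHom (F := K) (K₁ := L) E').ker ≤ χ.ker := by
    rw [IntermediateField.restrictNormalHom_ker]
    exact hE'
  have hsurj : Function.Surjective (AlgEquiv.restrictNormalHom (F := K) (K₁ := L) E') :=
    AlgEquiv.restrictNormalHom_surjective L
  -- descend `χ`
  let χ' : Gal(E'/K) →* Kˣ :=
    (AlgEquiv.restrictNormalHom (F := K) (K₁ := L) E').liftOfSurjective hsurj ⟨χ, hker⟩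
  have hχ' : ∀ σ : Gal(L/K), χ' (AlgEquiv.restrictNormalHom E' σ) = χ σ := fun σ =>
    (AlgEquiv.restrictNormalHom (F := K) (K₁ := L) E').liftOfRightInverse_comp_apply _
      (Function.rightInverse_surjInv hsurj) ⟨χ, hker⟩ σ
  obtain ⟨β, hβ⟩ := exists_kum_eq_of_finiteDimensional χ'
  refine ⟨Units.map (algebraMap E' L : E' →* L) β, fun σ => ?_⟩
  have h1 := hβ (AlgEquiv.restrictNormalHom E' σ)
  rw [hχ'] at h1
  have h2 := congrArg (fun u : E'ˣ => algebraMap E' L (u : E')) h1
  simp only [kum_val, map_div₀, Units.coe_map, MonoidHom.coe_coe] at h2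
  have h3 : algebraMap E' L ((AlgEquiv.restrictNormalHom E' σ) (β : E')) =
      σ (algebraMap E' L (β : E')) := AlgEquiv.restrictNormal_commutes σ E' (β : E')
  rw [h3, ← IsScalarTower.algebraMap_apply] at h2
  ext
  simpa using h2

end Infinite

section Roots

variable {K L : Type*} [Field K] [Field L] [Algebra K L] {p : ℕ} [NeZero p] {ζ : K}

/-- The inverse of `Kˣ → Lˣ` on the `p`-th roots of unity of `L` (all of which lie in `K`). -/
noncomputable def rootsToBase (hζ : IsPrimitiveRoot ζ p) : rootsOfUnity p L →* Kˣ :=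
  (MonoidHom.ofInjective (f := Units.map (algebraMap K L : K →* L))
      (Units.map_injective (algebraMap K L).injective)).symm.toMonoidHom.comp
    (Subgroup.inclusion (H := rootsOfUnity p L) (K := (Units.map (algebraMap K L : K →* L)).range)
      (fun _ hη => mem_baseUnits_of_mem_rootsOfUnity hζ hη))

lemma map_rootsToBase (hζ : IsPrimitiveRoot ζ p) (η : rootsOfUnity p L) :
    Units.map (algebraMap K L : K →* L) (rootsToBase hζ η) = (η : Lˣ) := by
  have := (MonoidHom.ofInjective (f := Units.map (algebraMap K L : K →* L))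
      (Units.map_injective (algebraMap K L).injective)).apply_symm_apply
    (Subgroup.inclusion (H := rootsOfUnity p L) (K := (Units.map (algebraMap K L : K →* L)).range)
      (fun _ hη => mem_baseUnits_of_mem_rootsOfUnity hζ hη) η)
  exact congrArg Subtype.val this

/-- **Kummer theory, surjectivity**: every character `Gal(L/K) → μ_p` of finite level is the Kummer
character of a `p`-radical. -/
theorem exists_radical_of_character [IsGalois K L] (hζ : IsPrimitiveRoot ζ p)
    (χ : Gal(L/K) →* rootsOfUnity p L) (E : IntermediateField K L) [FiniteDimensional K E]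
    (hE : E.fixingSubgroup ≤ χ.ker) :
    ∃ β ∈ radicals K L p, ∀ σ : Gal(L/K), kum σ β = (χ σ : Lˣ) := by
  obtain ⟨β, hβ⟩ := exists_kum_eq ((rootsToBase hζ).comp χ) E (fun σ hσ => by
    rw [MonoidHom.mem_ker, MonoidHom.comp_apply, (MonoidHom.mem_ker).1 (hE hσ), map_one])
  have hβ' : ∀ σ : Gal(L/K), kum σ β = (χ σ : Lˣ) := fun σ => by
    rw [hβ σ, MonoidHom.comp_apply, map_rootsToBase]
  refine ⟨β, mem_radicals_of_forall_kum_pow_eq_one fun σ => ?_, hβ'⟩
  rw [hβ' σ]
  exact (mem_rootsOfUnity _ _).1 (χ σ).2

/-- Finite-level version of `exists_radical_of_character`. -/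
theorem exists_radical_of_character_of_finiteDimensional [FiniteDimensional K L] [IsGalois K L]
    (hζ : IsPrimitiveRoot ζ p) (χ : Gal(L/K) →* rootsOfUnity p L) :
    ∃ β ∈ radicals K L p, ∀ σ : Gal(L/K), kum σ β = (χ σ : Lˣ) :=
  exists_radical_of_character hζ χ ⊤ (by
    rw [IntermediateField.fixingSubgroup_top]
    exact bot_le)

end Roots

end Fermat.Agent.CFT.Kummer
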