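/-
Kummer theory, converse direction: a finite abelian extension `L/K` of exponent `p` (`μ_p ⊆ K`) is
generated by its `p`-radicals, and `[L : K] = [radicals : Kˣ]`.
-/
import Fermat.Agent.CFT.Kummer.Multi
import Fermat.Agent.CFT.Kummer.Hilbert90

set_option autoImplicit false

namespace Fermat.Agent.CFT.Kummer

open IntermediateField

section Converse

variable {K L : Type*} [Field K] [Field L] [Algebra K L] {p : ℕ} [NeZero p] {ζ : K}

/-- The Kummer pairing, flipped: `radicals → Hom(Gal(L/K), μ_p)`. -/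
def kumHomFlip (hζ : IsPrimitiveRoot ζ p) :
    radicals K L p →* (Gal(L/K) →* rootsOfUnity p L) :=
  (kumHom hζ).flip

@[simp] lemma kumHomFlip_apply (hζ : IsPrimitiveRoot ζ p) (α : radicals K L p) (σ : Gal(L/K)) :
    ((kumHomFlip hζ α σ : rootsOfUnity p L) : Lˣ) = kum σ (α : Lˣ) := rfl

lemma ker_kumHomFlip [IsGalois K L] (hζ : IsPrimitiveRoot ζ p) :
    (kumHomFlip (L := L) hζ).ker = (baseUnits K L).subgroupOf (radicals K L p) := by
  ext α
  rw [MonoidHom.mem_ker, Subgroup.mem_subgroupOf, ← forall_kum_eq_one_iff_mem_baseUnits]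
  constructor
  · intro h σ
    have := DFunLike.congr_fun h σ
    simpa [Subtype.ext_iff] using this
  · intro h
    ext σ
    simp [h σ]

/-- If `Gal(L/K)` is finite then `[radicals : Kˣ]` is finite. -/
lemma relIndex_baseUnits_radicals_ne_zero [IsGalois K L] [Finite Gal(L/K)]
    (hζ : IsPrimitiveRoot ζ p) : (baseUnits K L).relIndex (radicals K L p) ≠ 0 := by
  have : Finite (rootsOfUnity p L) := inferInstance
  have : Finite (Gal(L/K) →* rootsOfUnity p L) :=
    Finite.of_injective (fun f => (f : Gal(L/K) → rootsOfUnity p L)) DFunLike.coe_injective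
  rw [Subgroup.relIndex, ← ker_kumHomFlip hζ, Subgroup.index_ker]
  exact Nat.card_pos.ne'

/-- **Kummer theory, converse**: a finite abelian extension of exponent `p` of a field containing
`μ_p` is generated by its `p`-radicals. -/
theorem adjoinUnits_radicals_eq_top [FiniteDimensional K L] [IsGalois K L]
    (hζ : IsPrimitiveRoot ζ p) (hcomm : ∀ σ τ : Gal(L/K), σ * τ = τ * σ)
    (hexp : ∀ σ : Gal(L/K), σ ^ p = 1) :
    adjoinUnits K (radicals K L p : Set Lˣ) = ⊤ := by
  set M := adjoinUnits K (radicals K L p : Set Lˣ) with hM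
  suffices hbot : M.fixingSubgroup = ⊥ by
    have := IsGalois.fixedField_fixingSubgroup M
    rw [hbot, IntermediateField.fixedField_bot] at this
    exact this.symm
  rw [eq_bot_iff]
  intro h hh
  rw [Subgroup.mem_bot]
  by_contra hne
  let _ : CommGroup Gal(L/K) := { (inferInstance : Group Gal(L/K)) with mul_comm := hcomm }
  have hexpG : Monoid.exponent Gal(L/K) ∣ p := Monoid.exponent_dvd_of_forall_pow_eq_one hexp
  have : HasEnoughRootsOfUnity L p := hasEnoughRootsOfUnity_of_isPrimitiveRoot hζ
  have : HasEnoughRootsOfUnity L (Monoid.exponent Gal(L/K)) :=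
    HasEnoughRootsOfUnity.of_dvd L hexpG
  obtain ⟨φ, hφ⟩ := CommGroup.exists_apply_ne_one_of_hasEnoughRootsOfUnity Gal(L/K) L hne
  -- `φ` takes values in `μ_p`
  let χ : Gal(L/K) →* rootsOfUnity p L := φ.codRestrict (rootsOfUnity p L) (fun σ => by
    rw [mem_rootsOfUnity, ← map_pow, hexp, map_one])
  obtain ⟨β, hβ, hβχ⟩ := exists_radical_of_character_of_finiteDimensional hζ χ
  have h1 : kum h β = 1 := by
    have := (forall_kum_eq_one_iff_mem_fixingSubgroup (K := K) (radicals K L p : Set Lˣ) h).2 hh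
    exact this β hβ
  rw [hβχ h] at h1
  exact hφ h1

/-- For a finite abelian extension `L/K` of exponent `p` with `μ_p ⊆ K`:
`[L : K] = [radicals : Kˣ]`. -/
theorem finrank_eq_relIndex_radicals [FiniteDimensional K L] [IsGalois K L]
    (hζ : IsPrimitiveRoot ζ p) (hcomm : ∀ σ τ : Gal(L/K), σ * τ = τ * σ)
    (hexp : ∀ σ : Gal(L/K), σ ^ p = 1) :
    Module.finrank K L = (baseUnits K L).relIndex (radicals K L p) := by
  rw [← finrank_adjoinUnits hζ (radicals K L p) le_rfl (relIndex_baseUnits_radicals_ne_zero hζ),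
    adjoinUnits_radicals_eq_top hζ hcomm hexp, IntermediateField.finrank_top']

end Converse

end Fermat.Agent.CFT.Kummer
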