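/-
Kummer correspondence, injectivity: a `p`-radical of `L/K` lying in `K(Δ)` already lies in `Δ · Kˣ`.
In particular `Kˣ ∩ K(a^{1/p})ˣᵖ = ⟨a⟩ · Kˣᵖ`.
-/
import Fermat.Agent.CFT.Kummer.MultiBase

set_option autoImplicit false

namespace Fermat.Agent.CFT.Kummer

open IntermediateField Subgroup

/-- If `a ^ p ∈ Q` (`p ≠ 0`) then `Q` has finite index in `Q ⊔ ⟨a⟩`. -/
lemma relIndex_sup_zpowers_ne_zero {J : Type*} [CommGroup J] {p : ℕ} (hp : p ≠ 0)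
    (Q : Subgroup J) (a : J) (hap : a ^ p ∈ Q) : Q.relIndex (Q ⊔ zpowers a) ≠ 0 := by
  rw [relIndex_sup_left]
  have hrange : (zpowersHom J a).range = zpowers a := by
    ext x
    simp [mem_zpowers_iff, MonoidHom.mem_range, zpowersHom_apply]
  rw [← hrange, ← Subgroup.index_comap]
  set N := Q.comap (zpowersHom J a) with hN
  have hle : AddSubgroup.toSubgroup (AddSubgroup.zmultiples (p : ℤ)) ≤ N := by
    intro x hx
    obtain ⟨k, hk⟩ := AddSubgroup.mem_zmultiples_iff.1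
      (show x.toAdd ∈ AddSubgroup.zmultiples (p : ℤ) from hx)
    rw [hN, Subgroup.mem_comap, zpowersHom_apply, ← hk, smul_eq_mul, mul_comm, zpow_mul,
      zpow_natCast]
    exact Q.zpow_mem hap k
  have hdvd := Subgroup.index_dvd_of_le hle
  rw [AddSubgroup.index_toSubgroup, Int.index_zmultiples, Int.natAbs_natCast] at hdvd
  exact fun h => hp (Nat.eq_zero_of_zero_dvd (h ▸ hdvd))

section Corr

variable {K L : Type*} [Field K] [Field L] [Algebra K L] {p : ℕ} [NeZero p] {ζ : K}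

lemma adjoinUnits_mono {S T : Set Lˣ} (h : S ⊆ T) : adjoinUnits K S ≤ adjoinUnits K T :=
  IntermediateField.adjoin.mono K _ _ (Set.image_mono h)

/-- Adjoining a subgroup is the same as adjoining the subgroup generated with `Kˣ` and with
elements already in the field. -/
lemma adjoinUnits_sup_le (Δ Δ' : Subgroup Lˣ)
    (h : ∀ γ ∈ Δ', (γ : L) ∈ adjoinUnits K (Δ : Set Lˣ)) :
    adjoinUnits K ((Δ ⊔ Δ' : Subgroup Lˣ) : Set Lˣ) = adjoinUnits K (Δ : Set Lˣ) := by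
  apply le_antisymm
  · rw [adjoinUnits, IntermediateField.adjoin_le_iff]
    rintro _ ⟨γ, hγ, rfl⟩
    obtain ⟨δ, hδ, δ', hδ', rfl⟩ := Subgroup.mem_sup.1 hγ
    show ((δ * δ' : Lˣ) : L) ∈ adjoinUnits K (Δ : Set Lˣ)
    rw [Units.val_mul]
    exact mul_mem (subset_adjoin K _ ⟨δ, hδ, rfl⟩) (h δ' hδ')
  · exact adjoinUnits_mono (fun x hx => (le_sup_left : Δ ≤ Δ ⊔ Δ') hx)

lemma coe_mem_adjoinUnits_of_mem_baseUnits (S : Set Lˣ) {γ : Lˣ} (hγ : γ ∈ baseUnits K L) :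
    (γ : L) ∈ adjoinUnits K S := by
  obtain ⟨c, hc⟩ := mem_baseUnits_iff.1 hγ
  rw [← hc]
  exact IntermediateField.algebraMap_mem _ c

/-- **Kummer correspondence (injectivity).** A `p`-radical lying in `K(Δ)` lies in `Δ · Kˣ`. -/
theorem mem_sup_baseUnits_of_coe_mem_adjoinUnits [IsGalois K L] (hζ : IsPrimitiveRoot ζ p)
    (Δ : Subgroup Lˣ) (hΔ : Δ ≤ radicals K L p) (hfin : (baseUnits K L).relIndex Δ ≠ 0)
    {β : Lˣ} (hβ : β ∈ radicals K L p) (hβM : (β : L) ∈ adjoinUnits K (Δ : Set Lˣ)) :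
    β ∈ Δ ⊔ baseUnits K L := by
  set B := baseUnits K L with hB
  set Δ₁ := Δ ⊔ B with hΔ₁
  set Δ₂ := Δ₁ ⊔ zpowers β with hΔ₂
  have hΔ₁rad : Δ₁ ≤ radicals K L p := sup_le hΔ baseUnits_le_radicals
  have hΔ₂rad : Δ₂ ≤ radicals K L p := sup_le hΔ₁rad ((zpowers_le).2 hβ)
  have hfin₁ : B.relIndex Δ₁ ≠ 0 := by
    rw [hΔ₁, relIndex_sup_right]
    exact hfin
  have hβp : β ^ p ∈ Δ₁ := le_sup_right (a := Δ) (pow_mem_baseUnits hβ)
  have hfin₁₂ : Δ₁.relIndex Δ₂ ≠ 0 := relIndex_sup_zpowers_ne_zero (NeZero.ne p) Δ₁ β hβp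
  have hfin₂ : B.relIndex Δ₂ ≠ 0 := relIndex_ne_zero_trans hfin₁ hfin₁₂
  have hK₁ : adjoinUnits K (Δ₁ : Set Lˣ) = adjoinUnits K (Δ : Set Lˣ) :=
    adjoinUnits_sup_le Δ B (fun γ hγ => coe_mem_adjoinUnits_of_mem_baseUnits _ hγ)
  have hK₂ : adjoinUnits K (Δ₂ : Set Lˣ) = adjoinUnits K (Δ₁ : Set Lˣ) := by
    apply adjoinUnits_sup_le
    intro γ hγ
    obtain ⟨n, rfl⟩ := mem_zpowers_iff.1 hγ
    rw [Units.val_zpow_eq_zpow_val, hK₁]
    exact zpow_mem hβM n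
  have h1 := finrank_adjoinUnits hζ Δ₁ hΔ₁rad hfin₁
  have h2 := finrank_adjoinUnits hζ Δ₂ hΔ₂rad hfin₂
  rw [hK₂, h1] at h2
  have h3 := relIndex_mul_relIndex B Δ₁ Δ₂ le_sup_right le_sup_left
  rw [← h2] at h3
  have h4 : Δ₁.relIndex Δ₂ = 1 := by
    have hpos : 0 < B.relIndex Δ₁ := Nat.pos_of_ne_zero hfin₁
    exact Nat.eq_of_mul_eq_mul_left hpos (by rw [h3, mul_one])
  exact (relIndex_eq_one.1 h4) (le_sup_right (a := Δ₁) (mem_zpowers β))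

/-- **Kummer correspondence, `K`-side.** If `x ∈ Kˣ` has a `p`-th root in `K(D^{1/p})`, then
`x ∈ D · Kˣᵖ`. -/
theorem mem_sup_range_pow_of_root_mem [IsGalois K L] (hζ : IsPrimitiveRoot ζ p)
    (D : Subgroup Kˣ) (hroot : ∀ d ∈ D, ∃ α : L, α ^ p = algebraMap K L (d : K))
    (hfin : (powMonoidHom p : Kˣ →* Kˣ).range.relIndex D ≠ 0) {x : Kˣ} {β : L}
    (hβ : β ^ p = algebraMap K L (x : K))
    (hβM : β ∈ adjoinUnits K (radicalsOf L p D : Set Lˣ)) :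
    x ∈ D ⊔ (powMonoidHom p : Kˣ →* Kˣ).range := by
  have hβ0 : β ≠ 0 := by
    rintro rfl
    rw [zero_pow (NeZero.ne p)] at hβ
    exact (Units.ne_zero x) ((algebraMap K L).injective (by rw [← hβ, map_zero]))
  have hβrad : Units.mk0 β hβ0 ∈ radicals K L p := mem_radicals_iff.2 ⟨x, by simpa using hβ.symm⟩
  have key := mem_sup_baseUnits_of_coe_mem_adjoinUnits hζ (radicalsOf L p D)
    (radicalsOf_le_radicals D) (by rwa [relIndex_radicalsOf hζ D hroot]) hβrad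
    (by simpa using hβM)
  obtain ⟨γ, hγ, c', hc', hγc⟩ := Subgroup.mem_sup.1 key
  obtain ⟨d, hd, hdγ⟩ := mem_radicalsOf_iff.1 hγ
  obtain ⟨c, hc⟩ := mem_baseUnits_iff.1 hc'
  have hc0 : c ≠ 0 := by
    rintro rfl
    rw [map_zero] at hc
    exact c'.ne_zero hc.symm
  refine Subgroup.mem_sup.2 ⟨d, hd, (Units.mk0 c hc0) ^ p, ⟨Units.mk0 c hc0, rfl⟩, ?_⟩
  apply Units.ext
  apply (algebraMap K L).injective
  have h1 : ((γ * c' : Lˣ) : L) = β := by rw [hγc]; rfl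
  rw [Units.val_mul, Units.val_pow_eq_pow_val, Units.val_mk0, map_mul, map_pow, hdγ, hc, ← hβ,
    ← h1, Units.val_mul, mul_pow]

/-- **`Kˣ ∩ K(a^{1/p})ˣᵖ = ⟨a⟩ · Kˣᵖ`.** -/
theorem exists_zpow_mul_pow_of_root_mem_adjoin_simple [IsGalois K L] (hζ : IsPrimitiveRoot ζ p)
    {a : Kˣ} {α : L} (hα : α ^ p = algebraMap K L (a : K)) {x : Kˣ} {β : L}
    (hβ : β ^ p = algebraMap K L (x : K)) (hβL : β ∈ K⟮α⟯) :
    ∃ (k : ℤ) (y : Kˣ), x = a ^ k * y ^ p := by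
  have hα0 : α ≠ 0 := by
    rintro rfl
    rw [zero_pow (NeZero.ne p)] at hα
    exact (Units.ne_zero a) ((algebraMap K L).injective (by rw [← hα, map_zero]))
  have hroot : ∀ d ∈ zpowers a, ∃ γ : L, γ ^ p = algebraMap K L (d : K) := by
    intro d hd
    obtain ⟨k, rfl⟩ := mem_zpowers_iff.1 hd
    refine ⟨α ^ k, ?_⟩
    rw [← zpow_natCast, ← zpow_mul, mul_comm, zpow_mul, zpow_natCast, hα,
      Units.val_zpow_eq_zpow_val, map_zpow₀]
  have hfin : (powMonoidHom p : Kˣ →* Kˣ).range.relIndex (zpowers a) ≠ 0 := by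
    have := relIndex_sup_zpowers_ne_zero (NeZero.ne p) (powMonoidHom p : Kˣ →* Kˣ).range a
      ⟨a, rfl⟩
    rwa [relIndex_sup_left] at this
  have hle : K⟮α⟯ ≤ adjoinUnits K (radicalsOf L p (zpowers a) : Set Lˣ) := by
    rw [IntermediateField.adjoin_simple_le_iff]
    refine subset_adjoin K _ ⟨Units.mk0 α hα0, ?_, rfl⟩
    exact mem_radicalsOf_iff.2 ⟨a, mem_zpowers a, by simpa using hα.symm⟩
  have key := mem_sup_range_pow_of_root_mem hζ (zpowers a) hroot hfin hβ (hle hβL)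
  obtain ⟨d, hd, y', ⟨y, rfl⟩, hxy⟩ := Subgroup.mem_sup.1 key
  obtain ⟨k, rfl⟩ := mem_zpowers_iff.1 hd
  exact ⟨k, y, hxy.symm⟩

end Corr

end Fermat.Agent.CFT.Kummer
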