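/-
C7 / [G4-LAYER] (a): the Kummer field `M_T = E(U_T^{1/p})` of the `T`-units of a number field
`E ⊆ Ω` (`Ω` an algebraic closure of `ℚ`) as a LAYER `E ≤ M_T` of intermediate fields of `Ω/ℚ`,
with all the properties consumed by the existence theorem mod `p`.
-/
import Fermat.Agent.CFT.Kummer.SUnitField
import Fermat.Agent.CFT.GaloisTower
import Fermat.Agent.CFT.Global.ExistenceModPChar

set_option autoImplicit false

namespace Fermat.Agent.CFT.Kummer

open IntermediateField IsDedekindDomain NumberField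

section Generic

/-- The Kummer field of the `T`-units inside an arbitrary Galois extension `L / K` containing the
`p`-th roots of the `T`-units: all the properties at once. -/
theorem sUnit_kummer_props (K : Type) [Field K] [NumberField K]
    (T : Set (HeightOneSpectrum (𝓞 K))) [Finite T] (p : ℕ) [hp : Fact p.Prime] {ζ : K}
    (hζ : IsPrimitiveRoot ζ p) (L : Type) [Field L] [Algebra K L] [IsGalois K L]
    (hroot : ∀ d ∈ T.unit K, ∃ α : L, α ^ p = algebraMap K L (d : K)) :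
    ∃ (_ : FiniteDimensional K ↥(adjoinUnits K (radicalsOf L p (T.unit K) : Set Lˣ)))
      (_ : IsGalois K ↥(adjoinUnits K (radicalsOf L p (T.unit K) : Set Lˣ))),
      (∀ σ : ↥(adjoinUnits K (radicalsOf L p (T.unit K) : Set Lˣ)) ≃ₐ[K]
          ↥(adjoinUnits K (radicalsOf L p (T.unit K) : Set Lˣ)), σ ^ p = 1) ∧
      (∀ σ τ : ↥(adjoinUnits K (radicalsOf L p (T.unit K) : Set Lˣ)) ≃ₐ[K]
          ↥(adjoinUnits K (radicalsOf L p (T.unit K) : Set Lˣ)), σ * τ = τ * σ) ∧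
      Module.finrank K ↥(adjoinUnits K (radicalsOf L p (T.unit K) : Set Lˣ)) =
        p ^ (NumberField.Units.rank K + Nat.card T + 1) ∧
      (∀ u ∈ T.unit K, ∃ α : ↥(adjoinUnits K (radicalsOf L p (T.unit K) : Set Lˣ)),
        α ^ p = algebraMap K _ (u : K)) ∧
      IntermediateField.adjoin K
        {α : ↥(adjoinUnits K (radicalsOf L p (T.unit K) : Set Lˣ)) |
          ∃ u ∈ T.unit K, α ^ p = algebraMap K _ (u : K)} = ⊤ := by
  have : NeZero p := ⟨hp.out.ne_zero⟩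
  have hS : (radicalsOf L p (T.unit K) : Set Lˣ) ⊆ radicals K L p :=
    radicalsOf_le_radicals (T.unit K)
  have hfin : Module.finrank K (adjoinUnits K (radicalsOf L p (T.unit K) : Set Lˣ)) =
      p ^ (NumberField.Units.rank K + Nat.card T + 1) :=
    finrank_adjoinUnits_radicalsOf_sUnit_numberField K T hζ hroot
  have hfd : FiniteDimensional K (adjoinUnits K (radicalsOf L p (T.unit K) : Set Lˣ)) := by
    apply Module.finite_of_finrank_pos
    rw [hfin]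
    exact pow_pos hp.out.pos _
  have hgal : IsGalois K (adjoinUnits K (radicalsOf L p (T.unit K) : Set Lˣ)) :=
    isGalois_adjoinUnits hζ hS
  have hM0' : adjoinUnits K (radicalsOf L p (T.unit K) : Set Lˣ) =
      adjoin K {x : L | ∃ d ∈ T.unit K, x ^ p = algebraMap K L (d : K)} :=
    adjoinUnits_radicalsOf_eq_adjoin (T.unit K)
  refine ⟨hfd, hgal, gal_adjoinUnits_pow_eq_one hζ hS, gal_adjoinUnits_mul_comm hζ hS, hfin,
    ?_, ?_⟩
  · intro u hu
    obtain ⟨α, hα⟩ := hroot u hu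
    have hmem : α ∈ adjoinUnits K (radicalsOf L p (T.unit K) : Set Lˣ) := by
      rw [hM0']
      exact subset_adjoin K _ ⟨u, hu, hα⟩
    exact ⟨⟨α, hmem⟩, Subtype.ext hα⟩
  · apply IntermediateField.map_injective
      (adjoinUnits K (radicalsOf L p (T.unit K) : Set Lˣ)).val
    rw [IntermediateField.adjoin_map, ← AlgHom.fieldRange_eq_map, fieldRange_val]
    conv_rhs => rw [hM0']
    congr 1
    ext x
    constructor
    · rintro ⟨α, ⟨u, hu, hα⟩, rfl⟩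
      exact ⟨u, hu, congrArg Subtype.val hα⟩
    · rintro ⟨u, hu, hx⟩
      have hmem : x ∈ adjoinUnits K (radicalsOf L p (T.unit K) : Set Lˣ) := by
        rw [hM0']
        exact subset_adjoin K _ ⟨u, hu, hx⟩
      exact ⟨⟨x, hmem⟩, ⟨u, hu, Subtype.ext hx⟩, rfl⟩

end Generic

section Layer

variable {Ω : Type} [Field Ω] [Algebra ℚ Ω] [IsAlgClosure ℚ Ω]

/-- `Ω / E` is Galois for every intermediate field `E` of an algebraic closure `Ω / ℚ`. -/
theorem isGalois_isAlgClosure_over (E : IntermediateField ℚ Ω) : IsGalois ↥E Ω := by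
  have h1 : Normal ℚ Ω := IsAlgClosure.normal ℚ Ω
  have h2 : Normal ↥E Ω := Normal.tower_top_of_normal ℚ ↥E Ω
  have h3 : Algebra.IsAlgebraic ℚ Ω := IsAlgClosure.isAlgebraic
  have h4 : Algebra.IsAlgebraic ↥E Ω := Algebra.IsAlgebraic.tower_top (K := ℚ) ↥E
  exact ⟨⟩

open GaloisTower in
/-- **The Kummer field of the `T`-units as a layer of `Ω / ℚ`.**  For a number field `E ⊆ Ω`
containing a primitive `p`-th root of unity and a finite set `T` of primes of `E` there is a finite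
`M ⊇ E` in `Ω` such that the layer `M / E` is Galois, abelian of exponent `p`, of degree
`p ^ (rank 𝓞_E^× + |T| + 1)`, contains a `p`-th root of every `T`-unit, is generated by these roots,
and has at least `p ^ (rank + |T| + 1)` characters with values in `ℤ/p`. -/
theorem exists_sUnit_kummer_layer (E : IntermediateField ℚ Ω) [NumberField ↥E]
    (T : Set (HeightOneSpectrum (𝓞 ↥E))) [Finite T] (p : ℕ) [hp : Fact p.Prime] {ζ : ↥E}
    (hζ : IsPrimitiveRoot ζ p) :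
    ∃ (M : IntermediateField ℚ Ω) (h : E ≤ M) (_ : FiniteDimensional ℚ ↥M)
      (_ : FiniteDimensional ↥E ↥(layer h)) (_ : IsGalois ↥E ↥(layer h)),
      (∀ σ : ↥(layer h) ≃ₐ[↥E] ↥(layer h), σ ^ p = 1) ∧
      (∀ σ τ : ↥(layer h) ≃ₐ[↥E] ↥(layer h), σ * τ = τ * σ) ∧
      Module.finrank ↥E ↥(layer h) = p ^ (NumberField.Units.rank ↥E + Nat.card T + 1) ∧
      (∀ u ∈ T.unit ↥E, ∃ α : ↥(layer h), α ^ p = algebraMap ↥E ↥(layer h) (u : ↥E)) ∧
      IntermediateField.adjoin ↥E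
        {α : ↥(layer h) | ∃ u ∈ T.unit ↥E, α ^ p = algebraMap ↥E ↥(layer h) (u : ↥E)} = ⊤ ∧
      p ^ (NumberField.Units.rank ↥E + Nat.card T + 1) ≤
        Nat.card ((↥(layer h) ≃ₐ[↥E] ↥(layer h)) →* Multiplicative (ZMod p)) ∧
      (∀ x : Ω, x ∈ M ↔
        x ∈ IntermediateField.adjoin ↥E
          {y : Ω | ∃ u ∈ T.unit ↥E, y ^ p = algebraMap ↥E Ω (u : ↥E)}) := by
  have hgalΩ : IsGalois ↥E Ω := isGalois_isAlgClosure_over E
  have hac : IsAlgClosed Ω := IsAlgClosure.isAlgClosed ℚ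
  have hroot : ∀ d ∈ T.unit ↥E, ∃ α : Ω, α ^ p = algebraMap ↥E Ω (d : ↥E) := fun d _ =>
    IsAlgClosed.exists_pow_nat_eq _ hp.out.pos
  obtain ⟨hfd, hgal, hexp, hcomm, hfin, hrt, hgen⟩ := sUnit_kummer_props ↥E T p hζ Ω hroot
  have hM0' : adjoinUnits ↥E (radicalsOf Ω p (T.unit ↥E) : Set Ωˣ) =
      adjoin ↥E {x : Ω | ∃ d ∈ T.unit ↥E, x ^ p = algebraMap ↥E Ω (d : ↥E)} :=
    adjoinUnits_radicalsOf_eq_adjoin (T.unit ↥E)
  have h : E ≤ (adjoinUnits ↥E (radicalsOf Ω p (T.unit ↥E) : Set Ωˣ)).restrictScalars ℚ :=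
    fun x hx => (adjoinUnits ↥E (radicalsOf Ω p (T.unit ↥E) : Set Ωˣ)).algebraMap_mem ⟨x, hx⟩
  have hlayer : layer h = adjoinUnits ↥E (radicalsOf Ω p (T.unit ↥E) : Set Ωˣ) := by
    ext x
    rfl
  have hfdQ : FiniteDimensional ℚ
      ↥((adjoinUnits ↥E (radicalsOf Ω p (T.unit ↥E) : Set Ωˣ)).restrictScalars ℚ) := by
    have h0 : FiniteDimensional ℚ ↥E := by
      have h00 := NumberField.to_finiteDimensional (K := ↥E)
      convert h00
      exact Subsingleton.elim _ _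
    have h1 : FiniteDimensional ℚ ↥(adjoinUnits ↥E (radicalsOf Ω p (T.unit ↥E) : Set Ωˣ)) :=
      Module.Finite.trans ↥E _
    exact h1
  -- transport along `layer h = M0`
  have key : ∀ M1 : IntermediateField ↥E Ω,
      M1 = adjoinUnits ↥E (radicalsOf Ω p (T.unit ↥E) : Set Ωˣ) →
      ∃ (_ : FiniteDimensional ↥E ↥M1) (_ : IsGalois ↥E ↥M1),
      (∀ σ : ↥M1 ≃ₐ[↥E] ↥M1, σ ^ p = 1) ∧
      (∀ σ τ : ↥M1 ≃ₐ[↥E] ↥M1, σ * τ = τ * σ) ∧
      Module.finrank ↥E ↥M1 = p ^ (NumberField.Units.rank ↥E + Nat.card T + 1) ∧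
      (∀ u ∈ T.unit ↥E, ∃ α : ↥M1, α ^ p = algebraMap ↥E ↥M1 (u : ↥E)) ∧
      IntermediateField.adjoin ↥E
        {α : ↥M1 | ∃ u ∈ T.unit ↥E, α ^ p = algebraMap ↥E ↥M1 (u : ↥E)} = ⊤ ∧
      p ^ (NumberField.Units.rank ↥E + Nat.card T + 1) ≤
        Nat.card ((↥M1 ≃ₐ[↥E] ↥M1) →* Multiplicative (ZMod p)) := by
    rintro _ rfl
    refine ⟨hfd, hgal, hexp, hcomm, hfin, hrt, hgen, ?_⟩
    let _ : CommGroup (↥(adjoinUnits ↥E (radicalsOf Ω p (T.unit ↥E) : Set Ωˣ)) ≃ₐ[↥E]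
        ↥(adjoinUnits ↥E (radicalsOf Ω p (T.unit ↥E) : Set Ωˣ))) :=
      { (inferInstance : Group (↥(adjoinUnits ↥E (radicalsOf Ω p (T.unit ↥E) : Set Ωˣ)) ≃ₐ[↥E]
          ↥(adjoinUnits ↥E (radicalsOf Ω p (T.unit ↥E) : Set Ωˣ)))) with mul_comm := hcomm }
    have hcard := ExistenceModP.natCard_monoidHom_zmod
      (G := ↥(adjoinUnits ↥E (radicalsOf Ω p (T.unit ↥E) : Set Ωˣ)) ≃ₐ[↥E]
        ↥(adjoinUnits ↥E (radicalsOf Ω p (T.unit ↥E) : Set Ωˣ))) p hexp
    have hG : Nat.card (↥(adjoinUnits ↥E (radicalsOf Ω p (T.unit ↥E) : Set Ωˣ)) ≃ₐ[↥E]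
        ↥(adjoinUnits ↥E (radicalsOf Ω p (T.unit ↥E) : Set Ωˣ))) =
        p ^ (NumberField.Units.rank ↥E + Nat.card T + 1) := by
      rw [IsGalois.card_aut_eq_finrank, hfin]
    exact (hG.symm.trans hcard.symm).le
  obtain ⟨k1, k2, k3⟩ := key (layer h) hlayer
  refine ⟨_, h, hfdQ, k1, k2, k3.1, k3.2.1, k3.2.2.1, k3.2.2.2.1, k3.2.2.2.2.1,
    k3.2.2.2.2.2, ?_⟩
  intro x
  rw [← hM0']
  rfl

end Layer

end Fermat.Agent.CFT.Kummer
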