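/-
Kummer theory, tame ramification criterion (pure algebra, `ValuationSubring` language):
an automorphism acting trivially on the residue field of a valuation subring `A` of residue
characteristic `≠ p` fixes every `p`-th root of an `A`-unit that it fixes.
-/
import Mathlib

set_option autoImplicit false

namespace Fermat.Agent.CFT.Kummer

section Tame

variable {Ω : Type*} [Field Ω]

lemma valuation_eq_one_of_pow_eq_one (A : ValuationSubring Ω) {η : Ω} {n : ℕ} (hn : n ≠ 0)
    (hη : η ^ n = 1) : A.valuation η = 1 := by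
  have h : A.valuation η ^ n = 1 := by rw [← map_pow, hη, map_one]
  exact (pow_eq_one_iff_of_nonneg zero_le hn).1 h

/-- **Tame criterion, core form.** Let `σ` be a ring endomorphism of `Ω`, `A` a valuation subring
in which `p` is a unit, and `β` an `A`-unit with `σ β ≡ β` modulo the maximal ideal and
`σ (β ^ p) = β ^ p`. Then `σ β = β`. -/
theorem apply_eq_self_of_pow_fixed (A : ValuationSubring Ω) (σ : Ω →+* Ω) {p : ℕ} (hp : p.Prime)
    (hpA : A.valuation (p : Ω) = 1) {β : Ω} (hβ : A.valuation β = 1)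
    (hσβ : A.valuation (σ β - β) < 1) (hfix : σ (β ^ p) = β ^ p) : σ β = β := by
  by_contra hne
  have hβ0 : β ≠ 0 := by
    rintro rfl
    rw [map_zero] at hβ
    exact zero_ne_one hβ
  set η : Ω := σ β * β⁻¹ with hη
  have hηp : η ^ p = 1 := by
    rw [hη, mul_pow, ← map_pow, hfix, inv_pow, mul_inv_cancel₀ (pow_ne_zero _ hβ0)]
  have hη1 : η ≠ 1 := by
    intro h
    apply hne
    have : σ β * β⁻¹ * β = 1 * β := by rw [← hη, h]
    rwa [inv_mul_cancel_right₀ hβ0, one_mul] at this
  have hprim : IsPrimitiveRoot η p := by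
    have hord : orderOf η = p := by
      have hdvd := orderOf_dvd_of_pow_eq_one hηp
      rcases (Nat.dvd_prime hp).1 hdvd with h | h
      · exact absurd (orderOf_eq_one_iff.1 h) hη1
      · exact h
    rw [← hord]
    exact IsPrimitiveRoot.orderOf η
  obtain ⟨z, hz, hpz⟩ := IsPrimitiveRoot.self_sub_one_pow_dvd_order (k := 1) hp.one_lt hprim
  have hηA : η ∈ A := (A.valuation_le_one_iff η).1 (valuation_eq_one_of_pow_eq_one A hp.ne_zero hηp).le
  have hzA : z ∈ A := by
    have hle : Algebra.adjoin ℤ {η} ≤ subalgebraOfSubring A.toSubring := by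
      apply Algebra.adjoin_le
      intro x hx
      rw [Set.mem_singleton_iff] at hx
      subst hx
      exact hηA
    exact hle hz
  have hvη : A.valuation (η - 1) < 1 := by
    have : η - 1 = (σ β - β) * β⁻¹ := by
      rw [hη, sub_mul, mul_inv_cancel₀ hβ0]
    rw [this, map_mul, map_inv₀, hβ, inv_one, mul_one]
    exact hσβ
  have hvp : A.valuation (p : Ω) < 1 := by
    rw [hpz, pow_one, map_mul]
    calc A.valuation z * A.valuation (η - 1) ≤ 1 * A.valuation (η - 1) :=
          mul_le_mul_left ((A.valuation_le_one_iff z).2 hzA) _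
      _ = A.valuation (η - 1) := one_mul _
      _ < 1 := hvη
  rw [hpA] at hvp
  exact lt_irrefl _ hvp

/-- **Tame criterion for Kummer generators.** If `α ^ p = u * b ^ p` with `u` an `A`-unit, `p` an
`A`-unit, and `σ` fixes `u` and `b` and acts trivially on the residue field of `A`, then `σ`
fixes `α`. -/
theorem apply_eq_self_of_pow_eq_unit_mul_pow (A : ValuationSubring Ω) (σ : Ω →+* Ω) {p : ℕ}
    (hp : p.Prime) (hpA : A.valuation (p : Ω) = 1)
    (hσ : ∀ x ∈ A, A.valuation (σ x - x) < 1) {α u b : Ω} (hα : α ^ p = u * b ^ p)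
    (hu : A.valuation u = 1) (hb : b ≠ 0) (hσu : σ u = u) (hσb : σ b = b) : σ α = α := by
  set β : Ω := α * b⁻¹ with hβdef
  have hβp : β ^ p = u := by
    rw [hβdef, mul_pow, hα, inv_pow, mul_assoc, mul_inv_cancel₀ (pow_ne_zero _ hb), mul_one]
  have hβv : A.valuation β = 1 := by
    have h : A.valuation β ^ p = 1 := by rw [← map_pow, hβp, hu]
    exact (pow_eq_one_iff_of_nonneg zero_le hp.ne_zero).1 h
  have hβA : β ∈ A := (A.valuation_le_one_iff β).1 hβv.le
  have h := apply_eq_self_of_pow_fixed A σ hp hpA hβv (hσ β hβA) (by rw [hβp, hσu])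
  have hαβ : α = β * b := by
    rw [hβdef, mul_assoc, inv_mul_cancel₀ hb, mul_one]
  rw [hαβ, map_mul, h, hσb]

end Tame

end Fermat.Agent.CFT.Kummer
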