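/-
Kummer theory, ramification criterion in the Prelude's language (`ValuationSubring (ℚ̄)`,
`inertiaSubgroupIn ℚ`, `IsUnramifiedOutside`): for `ℓ ≠ p`, `A ∣ ℓ`, and `α ≠ 0` with `α ^ p` fixed by
the inertia group of `A`:  inertia fixes `α`  ⇔  `v_A(α ^ p) ∈ v_A(ℓ) ^ (p ℤ)`.
-/
import Fermat.Agent.CFT.Kummer.Tame
import Fermat.Agent.S13.InertiaValue
import Fermat.Prelude.Def_GroupCohomology_ContinuousUnramified

set_option autoImplicit false

namespace Fermat.Agent.CFT.Kummer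

open IntermediateField

local notation "Qb" => AlgebraicClosure ℚ
local notation "GQ" => (AlgebraicClosure ℚ ≃ₐ[ℚ] AlgebraicClosure ℚ)

local instance instIsGaloisQbKummer : IsGalois ℚ Qb :=
  Fermat.Agent.S54.FrobExists.isGalois_rat_algebraicClosure

/-- A prime `p ≠ ℓ` is a unit in a valuation subring lying over `ℓ`. -/
lemma valuation_natCast_eq_one_of_liesOverPrime {Ω : Type*} [Field Ω] (A : ValuationSubring Ω)
    {p ℓ : ℕ} (hp : p.Prime) (hℓ : ℓ.Prime) (hpℓ : ℓ ≠ p) (hA : A.LiesOverPrime ℓ) :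
    A.valuation (p : Ω) = 1 := by
  have hle : ∀ n : ℤ, A.valuation (n : Ω) ≤ 1 := fun n =>
    (A.valuation_le_one_iff _).2 (intCast_mem A n)
  have hp1 : A.valuation (p : Ω) ≤ 1 := by
    have := hle (p : ℤ)
    rwa [Int.cast_natCast] at this
  refine le_antisymm hp1 (not_lt.1 fun hvp => ?_)
  have hvℓ : A.valuation (ℓ : Ω) < 1 := (A.mem_nonunits_iff).mp hA
  have hcop : Nat.Coprime p ℓ := (Nat.coprime_primes hp hℓ).2 (Ne.symm hpℓ)
  have hbez : (1 : Ω) = (Nat.gcdA p ℓ : Ω) * (p : Ω) + (Nat.gcdB p ℓ : Ω) * (ℓ : Ω) := by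
    have := Nat.gcd_eq_gcd_ab p ℓ
    rw [hcop] at this
    have h2 : ((1 : ℕ) : ℤ) = (p : ℤ) * Nat.gcdA p ℓ + (ℓ : ℤ) * Nat.gcdB p ℓ := this
    have h3 := congrArg (Int.cast : ℤ → Ω) h2
    push_cast at h3
    rw [h3]; ring
  have h1 : A.valuation (1 : Ω) < 1 := by
    rw [hbez]
    refine Valuation.map_add_lt _ ?_ ?_
    · rw [map_mul]
      calc _ ≤ 1 * A.valuation (p : Ω) := mul_le_mul_left (hle _) _
        _ = _ := one_mul _
        _ < 1 := hvp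
    · rw [map_mul]
      calc _ ≤ 1 * A.valuation (ℓ : Ω) := mul_le_mul_left (hle _) _
        _ = _ := one_mul _
        _ < 1 := hvℓ
  rw [map_one] at h1
  exact lt_irrefl _ h1

/-- **Tame criterion for Kummer generators over `ℚ̄`.** Let `ℓ ≠ p` be primes, `A` a valuation
subring of `ℚ̄` over `ℓ`, and `α ≠ 0` such that `α ^ p` is fixed by the inertia group of `A`.
Then the inertia group fixes `α` iff `v_A(α ^ p)` is a `p`-th power of a power of `v_A(ℓ)`. -/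
theorem forall_inertia_apply_eq_iff {p ℓ : ℕ} (hp : p.Prime) (hℓ : ℓ.Prime) (hpℓ : ℓ ≠ p)
    (A : ValuationSubring Qb) (hA : A.LiesOverPrime ℓ) {α : Qb} (hα : α ≠ 0)
    (hfix : ∀ σ ∈ A.inertiaSubgroupIn ℚ, σ (α ^ p) = α ^ p) :
    (∀ σ ∈ A.inertiaSubgroupIn ℚ, σ α = α) ↔
      ∃ n : ℤ, A.valuation (α ^ p) = A.valuation (ℓ : Qb) ^ ((p : ℤ) * n) := by
  constructor
  · intro h
    obtain ⟨n, hn⟩ := Fermat.Agent.S13.valuation_eq_zpow_of_inertia_fixed A hℓ hA hα h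
    refine ⟨n, ?_⟩
    rw [map_pow, hn, ← zpow_natCast, ← zpow_mul, mul_comm]
  · rintro ⟨n, hn⟩ σ hσ
    have hℓ0 : (ℓ : Qb) ≠ 0 := Nat.cast_ne_zero.2 hℓ.ne_zero
    have hσℓ : σ ((ℓ : Qb) ^ n) = (ℓ : Qb) ^ n := by
      rw [map_zpow₀, map_natCast]
    have hpA := valuation_natCast_eq_one_of_liesOverPrime A hp hℓ hpℓ hA
    have hI := (Fermat.Agent.S14.mem_inertiaSubgroupIn_iff A σ).1 hσ
    refine apply_eq_self_of_pow_eq_unit_mul_pow A (σ : Qb →+* Qb) hp hpA (fun x hx => hI.2 x hx)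
      (u := α ^ p * ((ℓ : Qb) ^ n)⁻¹ ^ p) (b := (ℓ : Qb) ^ n) ?_ ?_ (zpow_ne_zero _ hℓ0) ?_ hσℓ
    · rw [mul_assoc, ← mul_pow, inv_mul_cancel₀ (zpow_ne_zero _ hℓ0), one_pow, mul_one]
    · rw [map_mul, hn, map_pow, map_inv₀, map_zpow₀, ← zpow_natCast, ← zpow_neg, ← zpow_mul,
        ← zpow_add₀]
      · have : (p : ℤ) * n + -n * (p : ℤ) = 0 := by ring
        rw [this, zpow_zero]
      · exact (Valuation.ne_zero_iff _).2 hℓ0
    · show σ (α ^ p * ((ℓ : Qb) ^ n)⁻¹ ^ p) = α ^ p * ((ℓ : Qb) ^ n)⁻¹ ^ p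
      rw [map_mul, hfix σ hσ, map_pow, map_inv₀, hσℓ]

/-- **Kummer generators and `IsUnramifiedOutside`.** If `α ≠ 0` is algebraic with `α ^ p` fixed by
all inertia groups outside `S` (`p ∈ S`) and with valuations `v_A(α ^ p) ∈ v_A(ℓ) ^ (p ℤ)` at all
`A ∣ ℓ ∉ S`, then `ℚ(α)` is unramified outside `S`. -/
theorem isUnramifiedOutside_adjoin_simple {p : ℕ} (hp : p.Prime) (S : Finset Nat.Primes)
    (hpS : ∀ q : Nat.Primes, q ∉ S → (q : ℕ) ≠ p) {α : Qb} (hα : α ≠ 0)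
    (hfix : ∀ q : Nat.Primes, q ∉ S → ∀ A : ValuationSubring Qb, A.LiesOverPrime (q : ℕ) →
      ∀ σ ∈ A.inertiaSubgroupIn ℚ, σ (α ^ p) = α ^ p)
    (hval : ∀ q : Nat.Primes, q ∉ S → ∀ A : ValuationSubring Qb, A.LiesOverPrime (q : ℕ) →
      ∃ n : ℤ, A.valuation (α ^ p) = A.valuation ((q : ℕ) : Qb) ^ ((p : ℤ) * n)) :
    (ℚ⟮α⟯).IsUnramifiedOutside S := by
  refine ⟨IntermediateField.adjoin.finiteDimensional (Algebra.IsIntegral.isIntegral α),
    fun q hq A hA σ hσ => ?_⟩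
  have h := (forall_inertia_apply_eq_iff hp q.2 (hpS q hq) A hA hα (hfix q hq A hA)).2
    (hval q hq A hA) σ hσ
  rw [IntermediateField.mem_fixingSubgroup_iff]
  have := (forall_mem_adjoin_smul_eq_self_iff ℚ (S := {α}) σ).2 (by simpa using h)
  exact this

end Fermat.Agent.CFT.Kummer
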